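import Fermat.Agent.LanglandsTunnell.Lift.Bridge.Adelic
import Fermat.Agent.LanglandsTunnell.Geom.H3Measure

/-!
# From the adelic form over `ℚ(√-3)` to a function on `H³`

`phiOne` restricts an adelic form to `H³`; it is invariant under `congGroup N` and an eigenfunction
of the concrete Hecke operators (`phiOne_eigen`).  `bridgeSpec` packages it as a `LiftInput`
matching the representation at split primes.
-/

set_option autoImplicit false

noncomputable section

namespace FLTAgent.LanglandsTunnell.Lift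

open NumberField MeasureTheory FLTAgent.LanglandsTunnell
open Matrix (GeneralLinearGroup)

/-! ### Matrices over a commutative ring -/

/-- `(1, -c; 0, x)`. -/
def hLow {R : Type} [CommRing R] (x : Rˣ) (c : R) : GL (Fin 2) R where
  val := !![1, -c; 0, (x : R)]
  inv := !![1, c * ((x⁻¹ : Rˣ) : R); 0, ((x⁻¹ : Rˣ) : R)]
  val_inv := by
    ext i j
    fin_cases i <;> fin_cases j <;> simp [Matrix.mul_apply, Fin.sum_univ_two]
  inv_val := by
    ext i j
    fin_cases i <;> fin_cases j <;> simp [Matrix.mul_apply, Fin.sum_univ_two, mul_assoc]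

theorem map_hLow {R S : Type} [CommRing R] [CommRing S] (f : R →+* S) (x : Rˣ) (c : R) :
    GeneralLinearGroup.map f (hLow x c) = hLow (Units.map (f : R →* S) x) (f c) := by
  ext i j
  fin_cases i <;> fin_cases j <;> simp [hLow]

theorem hLow_inv {R : Type} [CommRing R] (π U : Rˣ) (c : R) :
    (hLow (π * U) c)⁻¹ =
      upperUnip c * diagUnit π * diagUnit U * GeneralLinearGroup.scalar (Fin 2) (π * U)⁻¹ := by
  apply Units.ext
  simp only [Units.val_mul]
  show (hLow (π * U) c).inv = (upperUnip c).1 * (diagUnit π).1 * (diagUnit U).1 *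
    Matrix.scalar (Fin 2) (((π * U)⁻¹ : Rˣ) : R)
  have h1 : (π : R) * (U : R) * (((π * U)⁻¹ : Rˣ) : R) = 1 := by
    rw [← Units.val_mul, Units.mul_inv]
  generalize hW : (((π * U)⁻¹ : Rˣ) : R) = W at h1 ⊢
  ext i j
  fin_cases i <;> fin_cases j <;>
    simp [hLow, hW, upperUnip, diagUnit, Matrix.mul_apply, Fin.sum_univ_two, h1, -mul_inv_rev]

theorem diagUnit_inv_eq {R : Type} [CommRing R] (π U : Rˣ) (h : GL (Fin 2) R)
    (hh : h.1 = !![1, 0; 0, (π : R)]) :
    (diagUnit (π * U))⁻¹ = h * diagUnit U⁻¹ * GeneralLinearGroup.scalar (Fin 2)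
      (U * (π * U)⁻¹) := by
  apply Units.ext
  simp only [Units.val_mul, hh]
  show (diagUnit (π * U)).inv = !![1, 0; 0, (π : R)] * (diagUnit U⁻¹).1 *
    Matrix.scalar (Fin 2) ((U * (π * U)⁻¹ : Rˣ) : R)
  have h1 : (π : R) * ((U * (π * U)⁻¹ : Rˣ) : R) = 1 := by
    rw [← Units.val_mul, ← mul_assoc, mul_inv_cancel, Units.val_one]
  have h2 : ((U⁻¹ : Rˣ) : R) * ((U * (π * U)⁻¹ : Rˣ) : R) = (((π * U)⁻¹ : Rˣ) : R) := by
    rw [← Units.val_mul, inv_mul_cancel_left]
  generalize ((U * (π * U)⁻¹ : Rˣ) : R) = W at h1 h2 ⊢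
  generalize hW : (((π * U)⁻¹ : Rˣ) : R) = V at h2 ⊢
  ext i j
  fin_cases i <;> fin_cases j <;>
    simp [hW, diagUnit, Matrix.mul_apply, Fin.sum_univ_two, h1, h2, -mul_inv_rev]

/-! ### The function -/

variable {D : Datum} (P : ExtPlaces D) {N : ℕ}

/-- The values at the base coset. -/
def phiOne (φ : Pt D.E Unit (Ideal.span {(N : 𝓞 D.E)}) → ℂ) (Q : H3) : ℂ :=
  φ (((1 : GL (Fin 2) (AF D.E)) : FinPt D.E (Ideal.span {(N : 𝓞 D.E)})), fun _ => Q)

/-- `GL(2, E) → GL(2, ℂ)`. -/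
abbrev embF : GL (Fin 2) D.E →* GL (Fin 2) ℂ := GeneralLinearGroup.map (embE P)

/-- `GL(2, 𝓞 E) → GL(2, E)`. -/
abbrev intGL : GL (Fin 2) (𝓞 D.E) →* GL (Fin 2) D.E :=
  GeneralLinearGroup.map (algebraMap (𝓞 D.E) D.E)

theorem embF_intGL (G : GL (Fin 2) (𝓞 D.E)) (i j : Fin 2) :
    (embF P (intGL G)).1 i j = embE P ((G.1 i j : 𝓞 D.E) : D.E) := rfl

theorem intGL_mem_congGroup {G : GL (Fin 2) (𝓞 D.E)}
    (h01 : G.1 0 1 ∈ Ideal.span {(N : 𝓞 D.E)}) (h10 : G.1 1 0 ∈ Ideal.span {(N : 𝓞 D.E)}) :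
    embF P (intGL G) ∈ congGroup N := by
  have key : ∀ H : GL (Fin 2) (𝓞 D.E), H.1 0 1 ∈ Ideal.span {(N : 𝓞 D.E)} →
      H.1 1 0 ∈ Ideal.span {(N : 𝓞 D.E)} → EisCong N (embF P (intGL H)).val := by
    intro H a b
    obtain ⟨z, hz⟩ := Ideal.mem_span_singleton'.mp a
    obtain ⟨z', hz'⟩ := Ideal.mem_span_singleton'.mp b
    refine ⟨fun i j => emb_mem_Eis P _, ⟨_, emb_mem_Eis P z, ?_⟩, ⟨_, emb_mem_Eis P z', ?_⟩⟩
    · rw [embF_intGL, ← hz]; simp [mul_comm]
    · rw [embF_intGL, ← hz']; simp [mul_comm]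
  refine ⟨key G h01 h10, ?_⟩
  rw [← map_inv, ← map_inv]
  refine key _ ?_ ?_ <;> rw [inv_val_fin_two] <;> simp only [Matrix.smul_apply, smul_eq_mul] <;>
    refine Ideal.mul_mem_left _ _ ?_
  · simpa using h01
  · simpa using h10

theorem exists_intGL {g : GL (Fin 2) ℂ} (hg : g ∈ congGroup N) :
    ∃ G : GL (Fin 2) (𝓞 D.E), G.1 0 1 ∈ Ideal.span {(N : 𝓞 D.E)} ∧
      G.1 1 0 ∈ Ideal.span {(N : 𝓞 D.E)} ∧ embF P (intGL G) = g := by
  obtain ⟨⟨h1, ⟨z, hz, e1⟩, ⟨z', hz', e2⟩⟩, ⟨h3, -, -⟩⟩ := hg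
  choose M hM using fun i j => exists_emb_eq P (h1 i j)
  choose M' hM' using fun i j => exists_emb_eq P (h3 i j)
  let f : 𝓞 D.E →+* ℂ := (embE P).comp (algebraMap (𝓞 D.E) D.E)
  have hf : Function.Injective fun m : Matrix (Fin 2) (Fin 2) (𝓞 D.E) => m.map f :=
    Matrix.map_injective fun a b h => emb_injective P h
  have hMf : (Matrix.of M).map f = g.val := Matrix.ext hM
  have hMf' : (Matrix.of M').map f = (g⁻¹).val := Matrix.ext hM'
  have key : ∀ A B : Matrix (Fin 2) (Fin 2) (𝓞 D.E), A.map f * B.map f = 1 → A * B = 1 := by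
    intro A B h
    refine hf (?_ : (A * B).map f = (1 : Matrix (Fin 2) (Fin 2) (𝓞 D.E)).map f)
    rw [Matrix.map_mul, h, Matrix.map_one f (map_zero f) (map_one f)]
  let G : GL (Fin 2) (𝓞 D.E) :=
    { val := Matrix.of M
      inv := Matrix.of M'
      val_inv := key _ _ (by rw [hMf, hMf', ← Units.val_mul, mul_inv_cancel, Units.val_one])
      inv_val := key _ _ (by rw [hMf, hMf', ← Units.val_mul, inv_mul_cancel, Units.val_one]) }
  refine ⟨G, ?_, ?_, Units.ext hMf⟩
  · obtain ⟨a, rfl⟩ := exists_emb_eq P hz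
    refine Ideal.mem_span_singleton'.mpr ⟨a, emb_injective P ?_⟩
    show _ = embE P (M 0 1)
    rw [hM, e1]; simp [mul_comm]
  · obtain ⟨a, rfl⟩ := exists_emb_eq P hz'
    refine Ideal.mem_span_singleton'.mpr ⟨a, emb_injective P ?_⟩
    show _ = embE P (M 1 0)
    rw [hM, e2]; simp [mul_comm]

variable {P} {φ : Pt D.E Unit (Ideal.span {(N : 𝓞 D.E)}) → ℂ}

theorem phiOne_smul (hinv : ∀ γ x, φ (act P.placesE γ x) = φ x) (γ : GL (Fin 2) D.E) (Q : H3) :
    phiOne φ (embF P γ • Q) =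
      φ ((((GeneralLinearGroup.map (toAF D.E) γ)⁻¹ : GL (Fin 2) (AF D.E)) :
        FinPt D.E (Ideal.span {(N : 𝓞 D.E)})), fun _ => Q) := by
  refine (hinv γ⁻¹ _).symm.trans (congrArg φ ?_)
  refine Prod.ext ?_ (funext fun _ => ?_)
  · show GeneralLinearGroup.map (toAF D.E) γ⁻¹ •
      ((1 : GL (Fin 2) (AF D.E)) : FinPt D.E (Ideal.span {(N : 𝓞 D.E)})) = _
    rw [MulAction.Quotient.smul_coe, smul_eq_mul, mul_one, map_inv]
  · show GeneralLinearGroup.map (embE P) γ⁻¹ • (embF P γ • Q) = Q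
    rw [map_inv, inv_smul_smul]

theorem phiOne_congGroup (hN : N ≠ 0) (hinv : ∀ γ x, φ (act P.placesE γ x) = φ x)
    (hdiag : DiagInvariant φ) {g : GL (Fin 2) ℂ} (hg : g ∈ congGroup N) (Q : H3) :
    phiOne φ (g • Q) = phiOne φ Q := by
  obtain ⟨G, h01, h10, hG⟩ := exists_intGL P (inv_mem hg)
  obtain ⟨k, u, z, hk, hu, hu', hd⟩ := exists_diag_decomp hN G h01 h10
  have hg' : g = embF P (intGL G)⁻¹ := by rw [map_inv, hG, inv_inv]
  rw [hg', phiOne_smul hinv, map_inv, inv_inv, hd,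
    apply_mul_diagUnit_mul_scalar (φ := fun v => φ (v, fun _ => Q))
      (fun u a b g' => hdiag u a b g' _) hu hu']
  refine congrArg (fun v => φ (v, fun _ => Q)) (QuotientGroup.eq.mpr ?_)
  rw [mul_one]
  exact inv_mem (Subgroup.mem_sup_left hk)

/-! ### The representatives of the Hecke operator -/

variable (P) in
/-- The embedding of the integers of `E` into `ℂ`. -/
private abbrev embInt : 𝓞 D.E →+* ℂ := (embE P).comp (algebraMap (𝓞 D.E) D.E)

/-- The representatives `(x, 0; 0, 1)` and `(1, -a r; 0, x)` over the field. -/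
private def heckeT {x : 𝓞 D.E} (hx0 : x ≠ 0) (a : 𝓞 D.E ⧸ Ideal.span {x} → 𝓞 D.E) :
    Option (𝓞 D.E ⧸ Ideal.span {x}) → GL (Fin 2) D.E
  | none => diagUnit (Units.mk0 _ (RingOfIntegers.coe_ne_zero_iff.mpr hx0))
  | some r => hLow (Units.mk0 _ (RingOfIntegers.coe_ne_zero_iff.mpr hx0)) (a r : D.E)

/-- The representatives over the integers. -/
private def heckeMat (x : 𝓞 D.E) (a : 𝓞 D.E ⧸ Ideal.span {x} → 𝓞 D.E) :
    Option (𝓞 D.E ⧸ Ideal.span {x}) → Matrix (Fin 2) (Fin 2) (𝓞 D.E)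
  | none => !![x, 0; 0, 1]
  | some r => !![1, -a r; 0, x]

variable {x : 𝓞 D.E} (hx0 : x ≠ 0) {a : 𝓞 D.E ⧸ Ideal.span {x} → 𝓞 D.E}
  (han : ∀ r, a r ∈ Ideal.span {(N : 𝓞 D.E)})
  (hamk : ∀ r, Ideal.Quotient.mk (Ideal.span {x}) (a r) = r)

/-- The representatives have integral entries. -/
private theorem embF_heckeT (i : Option (𝓞 D.E ⧸ Ideal.span {x})) :
    (embF P (heckeT hx0 a i)).1 = (heckeMat x a i).map (embInt P) := by
  rcases i with _ | r
  all_goals
    ext i j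
    fin_cases i <;> fin_cases j <;> simp [heckeT, heckeMat, diagUnit, hLow]

include han in
/-- They are diagonal modulo `N`, of determinant `x`. -/
private theorem heckeMat_spec (i : Option (𝓞 D.E ⧸ Ideal.span {x})) :
    heckeMat x a i 0 1 ∈ Ideal.span {(N : 𝓞 D.E)} ∧
      heckeMat x a i 1 0 ∈ Ideal.span {(N : 𝓞 D.E)} ∧ (heckeMat x a i).det = x := by
  rcases i with _ | r
  · exact ⟨zero_mem _, zero_mem _, by simp [heckeMat]⟩
  · exact ⟨neg_mem (han r), zero_mem _, by simp [heckeMat]⟩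

include han in
/-- They lie in the Hecke set. -/
private theorem embF_heckeT_mem {π : ℂ} (hx : embE P x = π)
    (i : Option (𝓞 D.E ⧸ Ideal.span {x})) : embF P (heckeT hx0 a i) ∈ heckeSet N π := by
  have hM := embF_heckeT (P := P) hx0 (a := a) i
  obtain ⟨h01, h10, hdet⟩ := heckeMat_spec han i
  obtain ⟨z, hz⟩ := Ideal.mem_span_singleton'.mp h01
  obtain ⟨z', hz'⟩ := Ideal.mem_span_singleton'.mp h10
  refine ⟨⟨fun i j => ?_, ⟨_, emb_mem_Eis P z, ?_⟩, ⟨_, emb_mem_Eis P z', ?_⟩⟩,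
    1, one_mem _, ⟨1, one_mem _, one_mul _⟩, ?_⟩
  · rw [hM]; exact emb_mem_Eis P _
  · rw [hM, Matrix.map_apply, ← hz]; simp [mul_comm]
  · rw [hM, Matrix.map_apply, ← hz']; simp [mul_comm]
  · rw [hM, one_mul]
    show ((embInt P).mapMatrix _).det = π
    rw [← RingHom.map_det, hdet]
    exact hx

include hamk in
/-- A matrix with determinant in `(x)` and first column outside it has a combination of its
columns in `(x)`. -/
private theorem exists_residue_mul_mem (hwp : (Ideal.span {x}).IsPrime) (hx0 : x ≠ 0)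
    (M : Fin 2 → Fin 2 → 𝓞 D.E) (hdw : M 0 0 * M 1 1 - M 0 1 * M 1 0 ∈ Ideal.span {x})
    (hnone : ¬ (M 0 0 ∈ Ideal.span {x} ∧ M 1 0 ∈ Ideal.span {x})) :
    ∃ q, a q * M 0 0 + M 0 1 ∈ Ideal.span {x} ∧ a q * M 1 0 + M 1 1 ∈ Ideal.span {x} := by
  have hmax := hwp.isMaximal (by simpa using hx0)
  have hsolve : ∀ y z : 𝓞 D.E, y ∉ Ideal.span {x} → ∃ q, a q * y + z ∈ Ideal.span {x} :=
      fun y z hy => by
    obtain ⟨s, i, hi, hs⟩ := hmax.exists_inv hy
    refine ⟨Ideal.Quotient.mk (Ideal.span {x}) (-(s * z)), ?_⟩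
    have h1 := Ideal.Quotient.eq.mp (hamk (Ideal.Quotient.mk (Ideal.span {x}) (-(s * z))))
    generalize a (Ideal.Quotient.mk (Ideal.span {x}) (-(s * z))) = aq at h1 ⊢
    rw [show aq * y + z = y * (aq - -(s * z)) + z * i by linear_combination (-z) * hs]
    exact add_mem (Ideal.mul_mem_left _ _ h1) (Ideal.mul_mem_left _ _ hi)
  by_cases h0 : M 0 0 ∈ Ideal.span {x}
  · have h1 : M 1 0 ∉ Ideal.span {x} := fun h => hnone ⟨h0, h⟩
    obtain ⟨q, hq⟩ := hsolve _ (M 1 1) h1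
    have h01 : M 0 1 ∈ Ideal.span {x} := (hwp.mem_or_mem (show M 0 1 * M 1 0 ∈ Ideal.span {x} by
      rw [show M 0 1 * M 1 0 = M 0 0 * M 1 1 - (M 0 0 * M 1 1 - M 0 1 * M 1 0) by ring]
      exact sub_mem (Ideal.mul_mem_right _ _ h0) hdw)).resolve_right h1
    exact ⟨q, add_mem (Ideal.mul_mem_left _ _ h0) h01, hq⟩
  · obtain ⟨q, hq⟩ := hsolve _ (M 0 1) h0
    refine ⟨q, hq, (hwp.mem_or_mem (show M 0 0 * (a q * M 1 0 + M 1 1) ∈ Ideal.span {x} by
      rw [show M 0 0 * (a q * M 1 0 + M 1 1) = M 1 0 * (a q * M 0 0 + M 0 1) +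
        (M 0 0 * M 1 1 - M 0 1 * M 1 0) by ring]
      exact add_mem (Ideal.mul_mem_left _ _ hq) hdw)).resolve_left h0⟩

include han hamk in
/-- Every element of the Hecke set has one of them as representative. -/
private theorem exists_heckeT_mul_inv_mem {π : ℂ} (hx : embE P x = π)
    (hwp : (Ideal.span {x}).IsPrime) (hcop : Ideal.span {x} ⊔ Ideal.span {(N : 𝓞 D.E)} = ⊤)
    {δ : GL (Fin 2) ℂ} (hδ : δ ∈ heckeSet N π) :
    ∃ i, δ * (embF P (heckeT hx0 a i))⁻¹ ∈ congGroup N := by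
  obtain ⟨⟨hE, ⟨b', hb', hb⟩, ⟨c', hc', hcc⟩⟩, u, hu, ⟨u', hu', huu⟩, hdet⟩ := hδ
  obtain ⟨u, rfl⟩ := exists_emb_eq P hu
  obtain ⟨u', rfl⟩ := exists_emb_eq P hu'
  obtain ⟨b', rfl⟩ := exists_emb_eq P hb'
  obtain ⟨c', rfl⟩ := exists_emb_eq P hc'
  choose M hM using fun i j => exists_emb_eq P (hE i j)
  have hεv : ∀ {y z : 𝓞 D.E}, embInt P y = embInt P z → y = z := fun h => emb_injective P h
  have hdM : M 0 0 * M 1 1 - M 0 1 * M 1 0 = u * x := hεv (by
    simp only [map_sub, map_mul, RingHom.comp_apply, hM, hx]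
    rw [← Matrix.det_fin_two, hdet])
  have hn1 : M 0 1 ∈ Ideal.span {(N : 𝓞 D.E)} := Ideal.mem_span_singleton'.mpr ⟨b', hεv (by
    simp only [map_mul, map_natCast, RingHom.comp_apply, hM, hb]; ring)⟩
  have hn2 : M 1 0 ∈ Ideal.span {(N : 𝓞 D.E)} := Ideal.mem_span_singleton'.mpr ⟨c', hεv (by
    simp only [map_mul, map_natCast, RingHom.comp_apply, hM, hcc]; ring)⟩
  have huu' : u * u' = 1 := hεv (by
    simp only [map_mul, map_one, RingHom.comp_apply]; exact huu)
  have hxdvd : ∀ {y : 𝓞 D.E}, y ∈ Ideal.span {x} → ∃ t, y = t * x := fun h =>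
    (Ideal.mem_span_singleton'.mp h).imp fun t ht => ht.symm
  have hnw : ∀ {y t : 𝓞 D.E}, y ∈ Ideal.span {(N : 𝓞 D.E)} → y = t * x →
      t ∈ Ideal.span {(N : 𝓞 D.E)} := fun {y t} hy ht => by
    obtain ⟨d, hd, e, he, hde⟩ := Submodule.mem_sup.mp
      (hcop ▸ Submodule.mem_top : (1 : 𝓞 D.E) ∈ Ideal.span {x} ⊔ Ideal.span {(N : 𝓞 D.E)})
    obtain ⟨f, rfl⟩ := Ideal.mem_span_singleton'.mp hd
    rw [show t = f * y + t * e by linear_combination (-t) * hde - f * ht]
    exact add_mem (Ideal.mul_mem_left _ _ hy) (Ideal.mul_mem_left _ _ he)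
  have fin : ∀ i (g00 g01 g10 g11 : 𝓞 D.E),
      g01 ∈ Ideal.span {(N : 𝓞 D.E)} → g10 ∈ Ideal.span {(N : 𝓞 D.E)} →
      !![g00, g01; g10, g11] * heckeMat x a i = Matrix.of M →
      ∃ i, δ * (embF P (heckeT hx0 a i))⁻¹ ∈ congGroup N := by
    intro i g00 g01 g10 g11 h01 h10 heq
    have hunit : IsUnit (!![g00, g01; g10, g11] : Matrix (Fin 2) (Fin 2) (𝓞 D.E)).det := by
      have h1 := congrArg Matrix.det heq
      rw [Matrix.det_mul, (heckeMat_spec han i).2.2, Matrix.det_fin_two (Matrix.of M)] at h1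
      rw [mul_right_cancel₀ hx0 (h1.trans hdM)]
      exact IsUnit.of_mul_eq_one _ huu'
    let G : GL (Fin 2) (𝓞 D.E) := Matrix.GeneralLinearGroup.mk'' _ hunit
    refine ⟨i, ?_⟩
    rw [show δ = embF P (intGL G) * embF P (heckeT hx0 a i) from Units.ext ?_, mul_inv_cancel_right]
    · exact intGL_mem_congGroup P h01 h10
    · rw [Units.val_mul, embF_heckeT]
      show δ.1 = Matrix.map !![g00, g01; g10, g11] (embInt P) * (heckeMat x a i).map (embInt P)
      rw [← Matrix.map_mul, heq]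
      exact Matrix.ext fun i j => (hM i j).symm
  by_cases hnone : M 0 0 ∈ Ideal.span {x} ∧ M 1 0 ∈ Ideal.span {x}
  · obtain ⟨t0, ht0⟩ := hxdvd hnone.1
    obtain ⟨t1, ht1⟩ := hxdvd hnone.2
    refine fin none t0 (M 0 1) t1 (M 1 1) hn1 (hnw hn2 ht1) ?_
    ext i j
    fin_cases i <;> fin_cases j <;>
      simp [heckeMat, Matrix.mul_apply, Fin.sum_univ_two, ht0, ht1]
  obtain ⟨q, hq1, hq2⟩ := exists_residue_mul_mem hamk hwp hx0 M
    (hdM ▸ Ideal.mul_mem_left _ _ (Ideal.mem_span_singleton_self _)) hnone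
  obtain ⟨t, ht⟩ := hxdvd hq1
  obtain ⟨e, he⟩ := hxdvd hq2
  refine fin (some q) (M 0 0) t (M 1 0) e
    (hnw (add_mem (Ideal.mul_mem_right _ _ (han q)) hn1) ht) hn2 ?_
  ext i j
  fin_cases i <;> fin_cases j <;>
    simp [heckeMat, Matrix.mul_apply, Fin.sum_univ_two, ← ht, ← he] <;> ring

include hamk in
/-- They lie in different classes. -/
private theorem heckeT_inj (hwp : (Ideal.span {x}).IsPrime)
    {i j : Option (𝓞 D.E ⧸ Ideal.span {x})}
    (h : embF P (heckeT hx0 a i) * (embF P (heckeT hx0 a j))⁻¹ ∈ congGroup N) : i = j := by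
  obtain ⟨G, -, -, hG⟩ := exists_intGL P h
  have e : G.1 * heckeMat x a j = heckeMat x a i :=
    Matrix.map_injective (f := embInt P) (fun _ _ h => emb_injective P h) (by
      show (G.1 * heckeMat x a j).map (embInt P) = (heckeMat x a i).map (embInt P)
      rw [Matrix.map_mul, ← embF_heckeT (P := P) hx0, ← embF_heckeT (P := P) hx0,
        show G.1.map (embInt P) = (embF P (intGL G)).1 from rfl, hG,
        ← Units.val_mul, inv_mul_cancel_right])
  have h00 := congrFun (congrFun e 0) 0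
  have h01 := congrFun (congrFun e 0) 1
  have hnu : ∀ t : 𝓞 D.E, t * x ≠ 1 := fun t ht =>
    hwp.ne_top ((Ideal.span_singleton_eq_top).mpr (IsUnit.of_mul_eq_one_right _ ht))
  rcases i with _ | r <;> rcases j with _ | r' <;>
    simp [heckeMat, Matrix.mul_apply, Fin.sum_univ_two] at h00 h01
  · rfl
  · have h11 := congrFun (congrFun e 1) 1
    have h10 := congrFun (congrFun e 1) 0
    simp [heckeMat, Matrix.mul_apply, Fin.sum_univ_two] at h11 h10
    exact absurd (by linear_combination h11 + a r' * h10) (hnu (G.1 1 1))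
  · exact absurd h00 (hnu _)
  · refine congrArg some ?_
    rw [← hamk r, ← hamk r', Ideal.Quotient.eq]
    refine Ideal.mem_span_singleton'.mpr ⟨-(G.1 0 1), ?_⟩
    rw [h00] at h01
    linear_combination -h01

include han hamk in
/-- Any system of representatives gives the sum over these. -/
private theorem sum_phiOne_eq [Fintype (𝓞 D.E ⧸ Ideal.span {x})] (hN : N ≠ 0)
    (hinv : ∀ γ x, φ (act P.placesE γ x) = φ x) (hdiag : DiagInvariant φ) {π : ℂ}
    (hx : embE P x = π) (hwp : (Ideal.span {x}).IsPrime)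
    (hcop : Ideal.span {x} ⊔ Ideal.span {(N : 𝓞 D.E)} = ⊤) {R : Finset (GL (Fin 2) ℂ)}
    (hR : IsHeckeReps N π R) (Q : H3) :
    ∑ δ ∈ R, phiOne φ (δ • Q) = ∑ i, phiOne φ (embF P (heckeT hx0 a i) • Q) := by
  choose r hr hru using fun i => hR.2 _ (embF_heckeT_mem (P := P) hx0 han hx i)
  refine (Finset.sum_bij (fun i _ => r i) (fun i _ => (hr i).1) (fun i _ j _ h => ?_)
    (fun δ hδ => ?_) fun i _ => ?_).symm
  · refine heckeT_inj (P := P) (N := N) hx0 hamk hwp ?_
    have := mul_mem (hr i).2 (inv_mem (hr j).2)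
    rwa [h, _root_.mul_inv_rev, inv_inv, mul_assoc, inv_mul_cancel_left] at this
  · obtain ⟨i, hi⟩ := exists_heckeT_mul_inv_mem hx0 han hamk hx hwp hcop (hR.1 hδ)
    refine ⟨i, Finset.mem_univ _, (hru i δ ⟨hδ, ?_⟩).symm⟩
    simpa [_root_.mul_inv_rev] using inv_mem hi
  · have := phiOne_congGroup hN hinv hdiag (hr i).2 (r i • Q)
    rwa [← mul_smul, inv_mul_cancel_right] at this

/-- The value at a representative is the one at the adelic representative. -/
private theorem phiOne_heckeT (hinv : ∀ γ x, φ (act P.placesE γ x) = φ x)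
    (hdiag : DiagInvariant φ) {p U : (AF D.E)ˣ}
    (hxU : toAF D.E (x : D.E) = ((p * U : (AF D.E)ˣ) : AF D.E))
    (hU : (U : AF D.E) ∈ intAF D.E) (hU' : ((U⁻¹ : (AF D.E)ˣ) : AF D.E) ∈ intAF D.E) (Q : H3)
    (i : Option (𝓞 D.E ⧸ Ideal.span {x})) :
    phiOne φ (embF P (heckeT hx0 a i) • Q) =
      φ (((hRep p (fun q => toAF D.E (a q : D.E)) i : GL (Fin 2) (AF D.E)) :
        FinPt D.E (Ideal.span {(N : 𝓞 D.E)})), fun _ => Q) := by
  set xu : (D.E)ˣ := Units.mk0 _ (RingOfIntegers.coe_ne_zero_iff.mpr hx0)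
  have hxu : Units.map (toAF D.E : D.E →* AF D.E) xu = p * U := Units.ext hxU
  rw [phiOne_smul hinv]
  rcases i with _ | q
  · show φ ((((GeneralLinearGroup.map (toAF D.E) (diagUnit xu))⁻¹ : GL (Fin 2) (AF D.E)) :
      FinPt D.E (Ideal.span {(N : 𝓞 D.E)})), fun _ => Q) = _
    rw [map_diagUnit, hxu, diagUnit_inv_eq p U
      (hRep p (fun q => toAF D.E (a q : D.E)) none) rfl]
    exact apply_mul_diagUnit_mul_scalar (φ := fun v => φ (v, fun _ => Q))
      (fun u a b g' => hdiag u a b g' _) hU' (by rw [inv_inv]; exact hU) _ _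
  · show φ ((((GeneralLinearGroup.map (toAF D.E) (hLow xu (a q : D.E)))⁻¹ :
      GL (Fin 2) (AF D.E)) : FinPt D.E (Ideal.span {(N : 𝓞 D.E)})), fun _ => Q) = _
    rw [map_hLow, hxu, hLow_inv]
    exact apply_mul_diagUnit_mul_scalar (φ := fun v => φ (v, fun _ => Q))
      (fun u a b g' => hdiag u a b g' _) hU hU' _ _

/-- The Hecke operator of `π` is the adelic one. -/
theorem phiOne_eigen (hN : N ≠ 0) (hinv : ∀ γ x, φ (act P.placesE γ x) = φ x)
    (hdiag : DiagInvariant φ) {π : ℂ} (hπ : GoodPi N π) {x : 𝓞 D.E} (hx : embE P x = π)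
    {av : ℂ} (heig : HeckeEigen φ (Ideal.span {x}) av) {R : Finset (GL (Fin 2) ℂ)}
    (hR : IsHeckeReps N π R) (Q : H3) :
    ∑ δ ∈ R, phiOne φ (δ • Q) = (‖π‖ : ℂ) * av * phiOne φ Q := by
  classical
  obtain ⟨x', hx', hx0, hwp, hnorm, hwn⟩ := goodPi_ideal P hπ
  obtain rfl : x' = x := emb_injective P (hx'.trans hx.symm)
  let n : Ideal (𝓞 D.E) := Ideal.span {(N : 𝓞 D.E)}
  set w := Ideal.span {x'} with hw
  have hw0 : w ≠ ⊥ := by simpa [hw] using hx0
  have hcop : w ⊔ n = ⊤ := (hwp.isMaximal hw0).out.2 _ (lt_of_le_of_ne le_sup_left fun h =>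
    hwn (Ideal.dvd_iff_le.mpr (h ▸ le_sup_right)))
  obtain ⟨a, han, hamk⟩ := exists_residue_reps hcop
  have hc := isResidueSection_toAF hw0 han hamk
  obtain ⟨p, hp⟩ := exists_isUniformizerAt (F := D.E) hw0 hcop
  obtain ⟨U, hxU, hU, hU'⟩ := exists_unit_eq_mul hp
  have : Finite (𝓞 D.E ⧸ w) := Ideal.finiteQuotientOfFreeOfNeBot w hw0
  have := Fintype.ofFinite (𝓞 D.E ⧸ w)
  rw [sum_phiOne_eq hx0 han hamk hN hinv hdiag hx hwp hcop hR Q,
    Finset.sum_congr rfl fun i _ => phiOne_heckeT hx0 hinv hdiag hxU hU hU' Q i]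
  have h := heig ((1 : GL (Fin 2) (AF D.E)) : FinPt D.E n) fun _ => Q
  have hnb := finsum_nbrs hwp hw0 hwn hp hc (1 : GL (Fin 2) (AF D.E))
    (one_mem (principalSubgroup ⊤)) (fun v => φ (v, fun _ => Q))
  simp only [one_mul, mul_one] at hnb
  rw [hnb] at h
  rw [h, hnorm, Complex.norm_def]
  rfl

/-- **The bridge.** -/
theorem bridgeSpec : BridgeSpec := by
  intro D P N φ a h hdiag hper
  classical
  have hN := h.ne_zero
  have hinv := h.eigen.automorphic.invariant
  have hcard : Fintype.card (Module.Free.ChooseBasisIndex ℤ (𝓞 D.E)) = 2 := by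
    rw [← Module.finrank_eq_card_chooseBasisIndex, RingOfIntegers.rank, WeightOneWiring.finrank_E]
  let e : Fin 2 ≃ Module.Free.ChooseBasisIndex ℤ (𝓞 D.E) := (Fintype.equivFinOfCardEq hcard).symm
  let b := (RingOfIntegers.basis D.E).reindex e.symm
  let A : ℂ → ℂ := fun π => a (Ideal.span {y : 𝓞 D.E | embE P y = π})
  have hA : ∀ {π : ℂ} {x : 𝓞 D.E}, embE P x = π → A π = a (Ideal.span {x}) := fun hx => by
    show a (Ideal.span _) = _
    congr 2
    ext y
    exact ⟨fun hy => emb_injective P (hy.trans hx.symm), fun hy => hy ▸ hx⟩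
  refine ⟨{
    φ := phiOne φ
    A := A
    continuous := (h.eigen.automorphic.continuous _).comp (continuous_pi fun _ => continuous_id)
    bounded := h.eigen.automorphic.bounded.imp fun C hC Q => hC _
    invariant := fun g hg Q => phiOne_congGroup hN hinv hdiag hg Q
    spherical := fun k hk hk' Q => ?_
    latticeBasis := fun j => embE P (b j : 𝓞 D.E)
    latticeBasis_span := fun z => ?_
    cuspidal := fun g hgint hgdet m hm hNm Q => ?_
    period := hper
    eigen := fun π hπ R hR Q => ?_ }, ?_⟩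
  · have := h.eigen.spherical () k hk hk'
      ((1 : GL (Fin 2) (AF D.E)) : FinPt D.E (Ideal.span {(N : 𝓞 D.E)})) fun _ => Q
    have hup : ∀ Q', Function.update (fun _ : Unit => Q) () Q' = fun _ => Q' := fun Q' =>
      funext fun _ => Function.update_self _ _ _
    simp only [hup] at this
    exact this
  · constructor
    · intro hz
      obtain ⟨y, rfl⟩ := exists_emb_eq P hz
      refine ⟨fun j => b.repr y j, ?_⟩
      conv_lhs => rw [← b.sum_repr y]
      simp
    · rintro ⟨k, rfl⟩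
      exact sum_mem fun j _ => mul_mem (intCast_mem_Eis _) (emb_mem_Eis P _)
  · let n : Ideal (𝓞 D.E) := Ideal.span {(N : 𝓞 D.E)}
    choose M hM using fun i j => exists_emb_eq P (hgint i j)
    have hdet1 : (Matrix.of M).det = 1 := by
      refine emb_injective P ?_
      rw [Matrix.det_fin_two]
      simp only [map_sub, map_mul, map_one, Matrix.of_apply, hM]
      rw [← Matrix.det_fin_two, hgdet]
    let G : GL (Fin 2) (𝓞 D.E) :=
      Matrix.GeneralLinearGroup.mk'' (Matrix.of M) (hdet1 ▸ isUnit_one)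
    have hG : embF P (intGL G) = g := Units.ext (Matrix.ext hM)
    set κ := (GeneralLinearGroup.map (toAF D.E) (intGL G))⁻¹
    have hκ : κ ∈ principalSubgroup (F := D.E) ⊤ := by
      refine inv_mem ?_
      have key : ∀ H : GL (Fin 2) (𝓞 D.E),
          CongrOne (⊤ : Ideal (𝓞 D.E)) (GeneralLinearGroup.map (toAF D.E) (intGL H)).1 := by
        intro H i j
        rw [idealAF_top, Matrix.sub_apply]
        refine sub_mem (toAF_mem_intAF (H.1 i j)) ?_
        rw [Matrix.one_apply]; split_ifs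
        · exact one_mem (intAF D.E)
        · exact zero_mem _
      exact ⟨key G, by rw [← map_inv, ← map_inv]; exact key _⟩
    have hstab : ∀ y : 𝓞 D.E, upperUnip (toAF D.E (m * (y : D.E))) •
        ((κ : GL (Fin 2) (AF D.E)) : FinPt D.E n) = (κ : FinPt D.E n) := by
      intro y
      rw [MulAction.Quotient.smul_coe, smul_eq_mul, QuotientGroup.eq, _root_.mul_inv_rev]
      refine Subgroup.mem_sup_left (conj_mem_principalSubgroup hκ (inv_mem ?_))
      have hmy : (m : AF D.E) * toAF D.E (y : D.E) ∈ idealAF D.E n := by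
        obtain ⟨k, rfl⟩ := hNm
        have : ((N * k : ℕ) : 𝓞 D.E) * y ∈ n := Ideal.mul_mem_right _ _ (by
          rw [Nat.cast_mul]; exact Ideal.mul_mem_right _ _ (Ideal.mem_span_singleton_self _))
        simpa using toAF_mem_idealAF this
      refine ⟨fun i j => ?_, fun i j => ?_⟩
      · fin_cases i <;> fin_cases j <;> simp [upperUnip, hmy]
      · show ((upperUnip (toAF D.E (m * (y : D.E)))).inv - 1) i j ∈ _
        fin_cases i <;> fin_cases j <;> simp [upperUnip, hmy]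
    have hc := h.eigen.cuspidal (κ : FinPt D.E n) (fun _ => Q) m hm hstab
    have hpre : MeasurableEquiv.piCongrLeft (fun _ => ℝ) e ⁻¹'
        Set.univ.pi (fun _ => Set.Icc (0 : ℝ) 1) = Set.univ.pi fun _ : Fin 2 =>
          Set.Icc (0 : ℝ) 1 := by
      ext s
      simp only [Set.mem_preimage, Set.mem_univ_pi]
      constructor
      · intro hs i
        have := hs (e i)
        rwa [MeasurableEquiv.piCongrLeft_apply_apply] at this
      · intro hs i
        obtain ⟨j, rfl⟩ := e.surjective i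
        rw [MeasurableEquiv.piCongrLeft_apply_apply]
        exact hs j
    rw [← (volume_measurePreserving_piCongrLeft (fun _ => ℝ) e).setIntegral_preimage_emb
      (MeasurableEquiv.measurableEmbedding _), hpre] at hc
    refine Eq.trans ?_ hc
    refine setIntegral_congr_fun (MeasurableSet.univ_pi fun _ => measurableSet_Icc) fun s _ => ?_
    rw [← hG, phiOne_smul hinv]
    refine congrArg φ (Prod.ext rfl (funext fun _ => ?_))
    show H3.shift _ Q = H3.shift _ Q
    congr 1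
    refine Fintype.sum_equiv e _ _ fun j => ?_
    rw [MeasurableEquiv.piCongrLeft_apply_apply]
    simp [b]
  · obtain ⟨x, hx, hx0, hwp, -, hwn⟩ := goodPi_ideal P hπ
    rw [hA hx]
    exact phiOne_eigen hN hinv hdiag hπ hx
      (h.eigen.eigen _ hwp (by simpa using hx0) hwn) hR Q
  · intro p hp hpN V hV σ hfr hq8
    have hσM : σ ∈ D.galM := Subgroup.subset_closure hq8
    have hσ : σ ∈ D.E.fixingSubgroup := (IntermediateField.mem_fixingSubgroup_iff _ _).mpr
      fun x hx => (IntermediateField.mem_fixedField_iff _ _).mp hx σ (D.galM_le_galE hσM)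
    obtain ⟨w, hwp, hw0, hwN, hpw, hfo⟩ := degreeOne_of_frobenius (D := D) hp hV hσ hfr
    obtain ⟨x, hx0, rfl⟩ := exists_generator hw0
    refine ⟨embE P x, emb_mem_Eis P x, by rw [← absNorm_span_eq, hwN], ?_⟩
    show A (embE P x) = _
    rw [hA rfl]
    refine h.splitPlaces _ hwp hw0 (fun hd => hpN (dvd_mul_of_dvd_right ?_ 3)) σ hfo hσM
    have h1 := map_dvd Ideal.absNorm hd
    rw [hwN, Ideal.absNorm_span_singleton, show (N : 𝓞 D.E) = algebraMap ℤ _ (N : ℤ) by simp,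
      Algebra.norm_algebraMap, Int.natAbs_pow] at h1
    exact hp.dvd_of_dvd_pow (by simpa using h1)

end FLTAgent.LanglandsTunnell.Lift
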