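import Fermat.Agent.LanglandsTunnell.Lift.Bridge.Field
import Fermat.Agent.LanglandsTunnell.AdelicNbrs

/-!
# Adelic facts used by the bridge

Units lifting classes modulo an ideal, scalars in level groups, and the
decomposition of an integral matrix by diagonal matrices (`exists_diag_decomp`), used to compare
adelic and concrete Hecke operators.
-/

set_option autoImplicit false

noncomputable section

namespace FLTAgent.LanglandsTunnell.Lift

open scoped TensorProduct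
open NumberField FLTAgent.LanglandsTunnell
open Matrix (GeneralLinearGroup)

variable {F : Type} [Field F] [NumberField F]

/-- An element prime to `N` lifts to an integral unit congruent to it modulo `N`. -/
theorem exists_unit_lift {N : ℕ} {a : 𝓞 F}
    (ha : Ideal.span {a} ⊔ Ideal.span {(N : 𝓞 F)} = ⊤) (hN : N ≠ 0) :
    ∃ u : (AF F)ˣ, (u : AF F) ∈ intAF F ∧ ((u⁻¹ : (AF F)ˣ) : AF F) ∈ intAF F ∧
      (u : AF F) - toAF F a ∈ idealAF F (Ideal.span {(N : 𝓞 F)}) := by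
  classical
  rcases eq_or_ne a 0 with rfl | ha0
  · rw [Ideal.span_singleton_eq_bot.mpr rfl, bot_sup_eq] at ha
    refine ⟨1, one_mem _, by rw [inv_one]; exact one_mem (intAF F), ?_⟩
    rw [ha, idealAF_top]
    exact sub_mem (one_mem (intAF F)) (toAF_mem_intAF _)
  set J := Ideal.span {a}
  set M := Ideal.absNorm J
  obtain ⟨a', ha'⟩ := Ideal.mem_span_singleton'.mp (Ideal.absNorm_mem J)
  have hMN : ∀ p : ℕ, p.Prime → p ∣ M → ¬ p ∣ N := by
    intro p hp hpM hpN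
    have := Fact.mk hp
    have : Finite (𝓞 F ⧸ J) := Ideal.finiteQuotientOfFreeOfNeBot J (by simpa [J] using ha0)
    obtain ⟨z, hz⟩ := exists_prime_addOrderOf_dvd_card' (G := 𝓞 F ⧸ J) p hpM
    obtain ⟨b, hb, c, hc, hbc⟩ := Submodule.mem_sup.mp
      (ha ▸ Submodule.mem_top : (1 : 𝓞 F) ∈ J ⊔ Ideal.span {(N : 𝓞 F)})
    obtain ⟨k, rfl⟩ := Ideal.mem_span_singleton'.mp hc
    obtain ⟨m, rfl⟩ := hpN
    have h1 : (1 : 𝓞 F ⧸ J) = Ideal.Quotient.mk J k * m * (p : 𝓞 F ⧸ J) := by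
      rw [← map_one (Ideal.Quotient.mk J), ← hbc, map_add, Ideal.Quotient.eq_zero_iff_mem.mpr hb,
        zero_add, map_mul, map_natCast]
      push_cast
      ring
    refine hp.one_lt.ne' ?_
    rw [← hz, AddMonoid.addOrderOf_eq_one_iff, ← one_mul z, h1, mul_assoc, ← nsmul_eq_mul,
      ← hz, addOrderOf_nsmul_eq_zero, mul_zero]
  have hex : ∀ p : Nat.Primes, ∃ e z y : ℤ_[(p : ℕ)], (M : ℤ_[(p : ℕ)]) * z = e ∧
      e * z = z ∧ e * (1 - e) = 0 ∧ (N : ℤ_[(p : ℕ)]) * y = 1 - e := by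
    intro p
    have hu : ∀ m : ℕ, ¬ (p : ℕ) ∣ m → ∃ z : ℤ_[(p : ℕ)], (m : ℤ_[(p : ℕ)]) * z = 1 :=
        fun m hm => by
      obtain ⟨u, hu⟩ : IsUnit (m : ℤ_[(p : ℕ)]) := by
        rw [PadicInt.isUnit_iff, PadicInt.norm_natCast_eq_one_iff]
        exact p.2.coprime_iff_not_dvd.mpr hm
      exact ⟨(u⁻¹ : ℤ_[(p : ℕ)]ˣ), by rw [← hu, Units.mul_inv]⟩
    by_cases hp : (p : ℕ) ∣ N
    · obtain ⟨z, hz⟩ := hu M fun h => hMN p p.2 h hp
      exact ⟨1, z, 0, hz, one_mul _, by rw [sub_self, mul_zero], by rw [mul_zero, sub_self]⟩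
    · obtain ⟨y, hy⟩ := hu N hp
      exact ⟨0, 0, y, mul_zero _, mul_zero _, zero_mul _, by rw [sub_zero]; exact hy⟩
  choose e z y hMz hez hee hNy using hex
  have eMz : (M : Zhat) * z = e := funext hMz
  have eez : (e : Zhat) * z = z := funext hez
  have eee : (e : Zhat) * (1 - e) = 0 := funext hee
  have eNy : (N : Zhat) * y = 1 - e := funext hNy
  let A : OH F := a ⊗ₜ (1 : Zhat)
  let A' : OH F := a' ⊗ₜ (1 : Zhat)
  let ι : Zhat →+* OH F := Algebra.TensorProduct.includeRight.toRingHom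
  have hAA : A * A' = ι (M : Zhat) := by
    rw [map_natCast, ← map_natCast (Algebra.TensorProduct.includeLeftRingHom : 𝓞 F →+* OH F),
      ← ha', mul_comm a']
    simp [A, A', Algebra.TensorProduct.tmul_mul_tmul]
  have hprod : (A * ι e + ι (1 - e)) * (A' * ι z + ι (1 - e)) = 1 := by
    have h1 : ι (M : Zhat) * ι z = ι e := by rw [← map_mul, eMz]
    have h2 : ι e * ι z = ι z := by rw [← map_mul, eez]
    have h3 : ι e * ι (1 - e) = 0 := by rw [← map_mul, eee, map_zero]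
    have h4 : ι z * ι (1 - e) = 0 := by rw [← h2, mul_comm (ι e), mul_assoc, h3, mul_zero]
    have h5 : ι e + ι (1 - e) = 1 := by rw [← map_add, add_sub_cancel, map_one]
    linear_combination (ι e * ι z) * hAA + ι (M : Zhat) * h2 + h1 + (A - 1) * h3 + A' * h4 +
      (ι (1 - e) + 1) * h5
  let u₀ : (OH F)ˣ := Units.mkOfMulEqOne _ _ hprod
  refine ⟨Units.map (intHom F).toRingHom.toMonoidHom u₀, ⟨_, rfl⟩, ⟨(u₀⁻¹ : (OH F)ˣ), rfl⟩, ?_⟩
  show intHom F (A * ι e + ι (1 - e)) - toAF F a ∈ _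
  rw [← intHom_tmul_one, ← map_sub, intHom_mem_idealAF_iff,
    show A * ι e + ι (1 - e) - a ⊗ₜ[ℤ] (1 : Zhat) = ι (1 - e) * (1 - A) by
      rw [map_sub, map_one]; ring, ← eNy, map_mul, map_natCast]
  exact Ideal.mul_mem_right _ _ (Ideal.mul_mem_right _ _
    (natCast_mem_idealOH (Ideal.mem_span_singleton_self _)))

variable {n w : Ideal (𝓞 F)}

/-- A uniformizer at a principal ideal is the generator up to an integral unit. -/
theorem exists_unit_eq_mul {x : 𝓞 F} {π : (AF F)ˣ}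
    (hπ : IsUniformizerAt n (Ideal.span {x}) π) :
    ∃ U : (AF F)ˣ, toAF F x = π * U ∧ (U : AF F) ∈ intAF F ∧
      ((U⁻¹ : (AF F)ˣ) : AF F) ∈ intAF F := by
  obtain ⟨π₀, hπ₀, -, he⟩ := isUniformizerAt_iff.mp hπ
  have hid : idealOH (Ideal.span {x}) = Ideal.span {x ⊗ₜ[ℤ] (1 : Zhat)} := by
    rw [idealOH, Ideal.map_span, Set.image_singleton]
    rfl
  rw [hid] at he
  obtain ⟨s, hs⟩ := Ideal.mem_span_singleton'.mp (he.symm ▸ Ideal.mem_span_singleton_self π₀ :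
    π₀ ∈ Ideal.span {x ⊗ₜ[ℤ] (1 : Zhat)})
  obtain ⟨t, ht⟩ := Ideal.mem_span_singleton'.mp
      (he ▸ Ideal.mem_span_singleton_self (x ⊗ₜ[ℤ] (1 : Zhat)) :
    x ⊗ₜ[ℤ] (1 : Zhat) ∈ Ideal.span {π₀})
  have hsx : (π : AF F) = intHom F s * toAF F x := by rw [← hπ₀, ← hs, map_mul, intHom_tmul_one]
  have htx : toAF F x = intHom F t * π := by rw [← hπ₀, ← map_mul, ht, intHom_tmul_one]
  have h1 : intHom F t * intHom F s = 1 := by
    refine π.mul_left_inj.mp ?_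
    rw [one_mul]
    conv_rhs => rw [hsx, htx]
    ring
  exact ⟨Units.mkOfMulEqOne _ _ h1, by rw [htx, mul_comm]; rfl, ⟨t, rfl⟩, ⟨s, rfl⟩⟩

omit [NumberField F] in
theorem scalar_mem_levelGroup (z : (AF F)ˣ) :
    GeneralLinearGroup.scalar (Fin 2) z ∈ levelGroup n := by
  refine Subgroup.mem_sup_right ?_
  rw [GeneralLinearGroup.center_eq_range_scalar]
  exact ⟨z, rfl⟩

variable {α : Type} {φ : FinPt F n → α}

omit [NumberField F] in
/-- A function on cosets invariant under diagonal units is also invariant under scalars. -/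
theorem apply_mul_diagUnit_mul_scalar
    (hφ : ∀ u : (AF F)ˣ, (u : AF F) ∈ intAF F → ((u⁻¹ : (AF F)ˣ) : AF F) ∈ intAF F →
      ∀ g : GL (Fin 2) (AF F), φ (g * diagUnit u : GL (Fin 2) (AF F)) = φ (g : FinPt F n))
    {u : (AF F)ˣ} (h1 : (u : AF F) ∈ intAF F) (h2 : ((u⁻¹ : (AF F)ˣ) : AF F) ∈ intAF F)
    (z : (AF F)ˣ) (g : GL (Fin 2) (AF F)) :
    φ (g * diagUnit u * GeneralLinearGroup.scalar (Fin 2) z : GL (Fin 2) (AF F)) =
      φ (g : FinPt F n) := by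
  rw [QuotientGroup.mk_mul_of_mem _ (scalar_mem_levelGroup z), hφ u h1 h2]

/-- The matrix of `g (diag(A Δ⁻¹, 1) Δ)⁻¹`. -/
theorem mul_diag_inv_val {R : Type} [CommRing R] (g : GL (Fin 2) R) (A Δ : Rˣ) :
    (g * (diagUnit (A * Δ⁻¹) * GeneralLinearGroup.scalar (Fin 2) Δ)⁻¹).1 =
      !![g.1 0 0 * (A⁻¹ : Rˣ).1, g.1 0 1 * (Δ⁻¹ : Rˣ).1;
        g.1 1 0 * (A⁻¹ : Rˣ).1, g.1 1 1 * (Δ⁻¹ : Rˣ).1] := by
  rw [_root_.mul_inv_rev, ← map_inv, Units.val_mul, Units.val_mul]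
  show g.1 * ((Matrix.scalar (Fin 2) ((Δ⁻¹ : Rˣ) : R)) * (diagUnit (A * Δ⁻¹)).inv) = _
  ext i j
  fin_cases i <;> fin_cases j <;>
    simp [diagUnit, Matrix.mul_apply, Fin.sum_univ_two, ← mul_assoc]

theorem det_mul_diag_inv {R : Type} [CommRing R] (g : GL (Fin 2) R) (A Δ : Rˣ) :
    (GeneralLinearGroup.det (g * (diagUnit (A * Δ⁻¹) * GeneralLinearGroup.scalar (Fin 2) Δ)⁻¹))⁻¹ =
      (A * Δ) * (GeneralLinearGroup.det g)⁻¹ := by
  have hs : GeneralLinearGroup.det (GeneralLinearGroup.scalar (Fin 2) Δ) = Δ * Δ := by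
    apply Units.ext
    rw [GeneralLinearGroup.val_det_apply]
    show (Matrix.scalar (Fin 2) (Δ : R)).det = _
    simp [Matrix.det_diagonal, sq]
  rw [map_mul, map_inv, map_mul, det_diagUnit, hs, _root_.mul_inv_rev, inv_inv]
  congr 1
  rw [mul_assoc, inv_mul_cancel_left]

/-- An integral matrix which is diagonal modulo `N` with unit determinant fixes the base coset up
to a diagonal unit and a scalar. -/
theorem exists_diag_decomp {N : ℕ} (hN : N ≠ 0) (G : GL (Fin 2) (𝓞 F))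
    (h01 : G.1 0 1 ∈ Ideal.span {(N : 𝓞 F)}) (h10 : G.1 1 0 ∈ Ideal.span {(N : 𝓞 F)}) :
    ∃ (k : GL (Fin 2) (AF F)) (u z : (AF F)ˣ), k ∈ principalSubgroup (Ideal.span {(N : 𝓞 F)}) ∧
      (u : AF F) ∈ intAF F ∧ ((u⁻¹ : (AF F)ˣ) : AF F) ∈ intAF F ∧
      GeneralLinearGroup.map (toAF F) (GeneralLinearGroup.map (algebraMap (𝓞 F) F) G) =
        k * diagUnit u * GeneralLinearGroup.scalar (Fin 2) z := by
  set n := Ideal.span {(N : 𝓞 F)}
  have hd := det_eq_GLdet G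
  set D₀ := GeneralLinearGroup.det G
  have hcop : Ideal.span {G.1 0 0 * G.1 1 1} ⊔ n = ⊤ := by
    rw [Ideal.eq_top_iff_one]
    have h1 : (1 : 𝓞 F) = G.1 0 0 * G.1 1 1 * (D₀⁻¹ : (𝓞 F)ˣ).1 -
        G.1 0 1 * (G.1 1 0 * (D₀⁻¹ : (𝓞 F)ˣ).1) := by
      linear_combination -(D₀⁻¹ : (𝓞 F)ˣ).1 * hd - D₀.mul_inv
    rw [h1, sub_eq_add_neg]
    exact Submodule.add_mem_sup (Ideal.mul_mem_right _ _ (Ideal.mem_span_singleton_self _))
      (neg_mem (Ideal.mul_mem_right _ _ h01))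
  have hc : Ideal.span {G.1 0 0} ⊔ n = ⊤ ∧ Ideal.span {G.1 1 1} ⊔ n = ⊤ := by
    rw [← Ideal.span_singleton_mul_span_singleton] at hcop
    exact ⟨eq_top_iff.mpr (hcop.ge.trans (sup_le_sup_right Ideal.mul_le_left n)),
      eq_top_iff.mpr (hcop.ge.trans (sup_le_sup_right Ideal.mul_le_right n))⟩
  obtain ⟨A, hA, hA', hAc⟩ := exists_unit_lift hc.1 hN
  obtain ⟨Δ, hΔ, hΔ', hΔc⟩ := exists_unit_lift hc.2 hN
  set g := GeneralLinearGroup.map (toAF F) (GeneralLinearGroup.map (algebraMap (𝓞 F) F) G) with hg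
  set T : GL (Fin 2) (AF F) :=
    diagUnit (A * Δ⁻¹) * GeneralLinearGroup.scalar (Fin 2) Δ with hT
  refine ⟨g * T⁻¹, A * Δ⁻¹, Δ, ?_, by rw [Units.val_mul]; exact mul_mem hA hΔ',
    by rw [_root_.mul_inv_rev, inv_inv, Units.val_mul]; exact mul_mem hΔ hA',
    by rw [mul_assoc, ← hT, inv_mul_cancel_right]⟩
  have hg' : ∀ i j, g.1 i j = toAF F (G.1 i j) := fun i j => rfl
  have hval := mul_diag_inv_val g A Δ
  have hdiag : ∀ {a : 𝓞 F} {U : (AF F)ˣ}, ((U⁻¹ : (AF F)ˣ) : AF F) ∈ intAF F →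
      (U : AF F) - toAF F a ∈ idealAF F n → toAF F a * (U⁻¹ : (AF F)ˣ).1 - 1 ∈ idealAF F n := by
    intro a U hU hUc
    rw [show toAF F a * (U⁻¹ : (AF F)ˣ).1 - 1 =
      -((U⁻¹ : (AF F)ˣ).1 * ((U : AF F) - toAF F a)) by
        rw [mul_sub, Units.inv_mul]; ring]
    exact neg_mem (mul_mem_idealAF_left hU hUc)
  refine mem_principalSubgroup_of_det _ (fun i j => ?_) ?_
  · rw [Matrix.sub_apply, hval, hg', hg', hg', hg']
    fin_cases i <;> fin_cases j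
    · simpa using hdiag hA' hAc
    · simpa [mul_comm] using mul_mem_idealAF_left hΔ' (toAF_mem_idealAF h01)
    · simpa [mul_comm] using mul_mem_idealAF_left hA' (toAF_mem_idealAF h10)
    · simpa using hdiag hΔ' hΔc
  · rw [det_mul_diag_inv, Units.val_mul, Units.val_mul]
    refine mul_mem (mul_mem hA hΔ) ?_
    rw [GeneralLinearGroup.map_det, GeneralLinearGroup.map_det, ← map_inv, ← map_inv]
    exact toAF_mem_intAF (D₀⁻¹ : (𝓞 F)ˣ).1

end FLTAgent.LanglandsTunnell.Lift
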