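import Fermat.Agent.LanglandsTunnell.Lift.Eisenstein
import Fermat.Agent.LanglandsTunnell.CFT.FrobeniusOver
import Fermat.Agent.WeightOneWiring.Places

/-!
# `ℚ(√-3)` as a subfield of `ℂ`

The ring of integers of the field of a datum is identified with the Eisenstein integers through
the embedding `embE`; good elements generate primes of degree one (`goodPi_ideal`,
`degreeOne_of_frobenius`).  Used by the bridge.
-/

set_option autoImplicit false

noncomputable section

namespace FLTAgent.LanglandsTunnell.Lift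

open Complex ComplexConjugate NumberField FLTAgent.LanglandsTunnell
open FLTAgent.Density (Qbar GalQ Zbar primeBelow mem_primeBelow)
open FLTAgent.ExtVanishing (intEmb)

theorem exists_int_of_isIntegral {q : ℚ} {z : ℂ} (hz : IsIntegral ℤ z) (h : (q : ℂ) = z) :
    ∃ k : ℤ, (k : ℚ) = q := by
  subst h
  have hq : IsIntegral ℤ q :=
    (isIntegral_algHom_iff (algebraMap ℚ ℂ).toIntAlgHom (algebraMap ℚ ℂ).injective).mp hz
  obtain ⟨k, hk⟩ := IsIntegrallyClosed.isIntegral_iff.mp hq
  exact ⟨k, hk⟩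

/-- An algebraic integer of `ℚ(ω)` is an Eisenstein integer. -/
theorem mem_Eis_of_isIntegral {a b : ℚ} (hz : IsIntegral ℤ (eis a b)) : eis a b ∈ Eis := by
  have hw : IsIntegral ℤ omega :=
    IsIntegral.of_pow (n := 3) (by norm_num) (by
      rw [show omega ^ 3 = (1 : ℂ) by linear_combination (omega - 1) * omega_sq]
      exact isIntegral_one)
  have hconj : ∀ {z : ℂ}, IsIntegral ℤ z → IsIntegral ℤ (conj z) := fun h =>
    h.map (starRingEnd ℂ).toIntAlgHom
  obtain ⟨k, hk⟩ := exists_int_of_isIntegral (q := 2 * a - b) (hz.add (hconj hz)) (by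
    rw [conj_eis]; simp [eis]; ring)
  obtain ⟨l, hl⟩ := exists_int_of_isIntegral (q := -(a + b))
    ((hz.mul hw).add (hconj (hz.mul hw))) (by
      rw [map_mul, conj_eis, conj_omega]
      simp only [eis]
      push_cast
      linear_combination (-2 * (b : ℂ)) * omega_sq)
  obtain ⟨n, hn⟩ := exists_int_of_isIntegral (q := a * a - a * b + b * b) (hz.mul (hconj hz)) (by
    rw [mul_conj, normSq_eis]; push_cast; rfl)
  have h3 : (3 : ℤ) * n = k * k + k * l + l * l := by
    have : (3 : ℚ) * n = k * k + k * l + l * l := by rw [hk, hl, hn]; ring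
    exact_mod_cast this
  have hd : (3 : ℤ) ∣ k - l := by
    refine Int.Prime.dvd_pow' Nat.prime_three (k := 2) ?_
    exact ⟨n - k * l, by linear_combination -h3⟩
  obtain ⟨c, hc⟩ := hd
  refine ⟨c, -l - c, ?_⟩
  have hc' : (k : ℚ) - l = 3 * c := by exact_mod_cast hc
  rw [hk, hl] at hc'
  have ha : a = c := by linarith
  have hb : b = -l - c := by rw [hl]; linarith
  rw [ha, hb]
  push_cast
  rfl

variable {D : Datum} (P : ExtPlaces D)

/-- The chosen embedding. -/
abbrev embE : D.E →+* ℂ := P.placesE.emb ()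

theorem exists_emb_omega : ∃ ζ : 𝓞 D.E, embE P ζ = omega := by
  obtain ⟨ζ, h3, h1⟩ := WeightOneWiring.exists_zeta D
  have hint : IsIntegral ℤ ζ := IsIntegral.of_pow (n := 3) (by norm_num) (h3 ▸ isIntegral_one)
  set z := embE P ζ
  have hz : z ^ 3 = 1 := by rw [← map_pow, h3, map_one]
  have hne : z - 1 ≠ 0 := fun h => h1 ((embE P).injective (by rw [map_one]; exact sub_eq_zero.mp h))
  have hq : (z - omega) * (z - (-1 - omega)) = 0 := by
    refine (mul_eq_zero.mp (show (z - 1) * ((z - omega) * (z - (-1 - omega))) = 0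
        from ?_)).resolve_left hne
    linear_combination hz + (1 - z) * omega_sq
  rcases mul_eq_zero.mp hq with h | h
  · exact ⟨⟨ζ, hint⟩, sub_eq_zero.mp h⟩
  · refine ⟨-1 - ⟨ζ, hint⟩, ?_⟩
    show embE P ((-1 : D.E) - ζ) = omega
    rw [map_sub, map_neg, map_one]
    linear_combination -h

theorem exists_emb_eq {z : ℂ} (h : z ∈ Eis) : ∃ a : 𝓞 D.E, embE P a = z := by
  obtain ⟨x, y, rfl⟩ := h
  obtain ⟨ζ, hζ⟩ := exists_emb_omega P
  refine ⟨x + y * ζ, ?_⟩
  simp [eis, hζ]

theorem exists_emb_eq_eis (x : D.E) : ∃ a b : ℚ, embE P x = eis a b := by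
  obtain ⟨ζ, hζ⟩ := exists_emb_omega P
  let L : ℚ × ℚ →ₗ[ℚ] D.E :=
    { toFun := fun p => (p.1 : D.E) + (p.2 : D.E) * (ζ : D.E)
      map_add' := fun p q => by simp only [Prod.fst_add, Prod.snd_add, Rat.cast_add]; ring
      map_smul' := fun c p => by
        simp only [Prod.smul_fst, Prod.smul_snd, smul_eq_mul, Rat.cast_mul, RingHom.id_apply]
        rw [Rat.smul_def]; ring }
  have hL : ∀ p, embE P (L p) = eis p.1 p.2 := fun p => by
    show embE P ((p.1 : D.E) + (p.2 : D.E) * (ζ : D.E)) = _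
    rw [map_add, map_mul, map_ratCast, map_ratCast, hζ]
    simp [eis]
  have hinj : Function.Injective L := fun p q h => by
    have e := congrArg (embE P) h
    rw [hL, hL] at e
    obtain ⟨e1, e2⟩ := eis_inj e
    exact Prod.ext (Rat.cast_injective e1) (Rat.cast_injective e2)
  obtain ⟨p, rfl⟩ := (LinearMap.injective_iff_surjective_of_finrank_eq_finrank
    (by rw [WeightOneWiring.finrank_E, Module.finrank_prod, Module.finrank_self])).mp hinj x
  exact ⟨_, _, hL p⟩

theorem emb_mem_Eis (a : 𝓞 D.E) : embE P a ∈ Eis := by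
  obtain ⟨x, y, h⟩ := exists_emb_eq_eis P a
  rw [h]
  refine mem_Eis_of_isIntegral (h ▸ ?_)
  exact (RingOfIntegers.isIntegral_coe a).map (embE P).toIntAlgHom

theorem emb_injective {a b : 𝓞 D.E} (h : embE P a = embE P b) : a = b :=
  RingOfIntegers.coe_injective ((embE P).injective h)

theorem absNorm_span_eq (a : 𝓞 D.E) :
    (Ideal.absNorm (Ideal.span {a}) : ℝ) = normSq (embE P a) := by
  classical
  have huniv : (Finset.univ : Finset (InfinitePlace D.E)) = {InfinitePlace.mk (embE P)} := by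
    refine Finset.eq_singleton_iff_unique_mem.mpr ⟨Finset.mem_univ _, fun w _ => ?_⟩
    obtain ⟨i, rfl⟩ := P.placesE.bijective.surjective w
    rfl
  have h := InfinitePlace.prod_eq_abs_norm (a : D.E)
  rw [huniv, Finset.prod_singleton, InfinitePlace.mult,
    if_neg (InfinitePlace.not_isReal_iff_isComplex.mpr (P.placesE.isComplex ())),
    InfinitePlace.apply, Complex.sq_norm] at h
  rw [h, Ideal.absNorm_span_singleton, ← Algebra.coe_norm_int]
  rw [Nat.cast_natAbs]
  push_cast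
  rfl

/-- Every nonzero ideal is principal. -/
theorem exists_generator {I : Ideal (𝓞 D.E)} (hI : I ≠ ⊥) :
    ∃ x : 𝓞 D.E, x ≠ 0 ∧ I = Ideal.span {x} := by
  classical
  obtain ⟨P⟩ := WeightOneWiring.nonempty_extPlaces D
  obtain ⟨x₀, hx₀, hx₀0⟩ := Submodule.exists_mem_ne_zero_of_ne_bot hI
  have hex : ∃ n, ∃ x ∈ I, x ≠ 0 ∧ Ideal.absNorm (Ideal.span {x}) = n := ⟨_, x₀, hx₀, hx₀0, rfl⟩
  obtain ⟨x, hx, hx0, hxn⟩ := Nat.find_spec hex
  refine ⟨x, hx0, le_antisymm (fun y hy => ?_) ((Ideal.span_singleton_le_iff_mem _).mpr hx)⟩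
  have hex0 : embE P x ≠ 0 := (map_ne_zero _).mpr (RingOfIntegers.coe_ne_zero_iff.mpr hx0)
  obtain ⟨q, hq, hlt⟩ := exists_near (embE P y / embE P x)
  obtain ⟨c, rfl⟩ := exists_emb_eq P hq
  by_cases hr : y - c * x = 0
  · exact Ideal.mem_span_singleton'.mpr ⟨c, (sub_eq_zero.mp hr).symm⟩
  exfalso
  have hmin := Nat.find_min' hex ⟨y - c * x, sub_mem hy (I.mul_mem_left _ hx), hr, rfl⟩
  rw [← hxn] at hmin
  have : normSq (embE P x) ≤ normSq (embE P (y - c * x : 𝓞 D.E)) := by
    rw [← absNorm_span_eq, ← absNorm_span_eq]; exact_mod_cast hmin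
  rw [show embE P ((y - c * x : 𝓞 D.E) : D.E) = (embE P y / embE P x - embE P c) * embE P x by
    simp only [map_sub, map_mul]; rw [sub_mul, div_mul_cancel₀ _ hex0], map_mul] at this
  nlinarith [normSq_pos.mpr hex0]

theorem normSq_not_two_mod_three {z : ℂ} (hz : z ∈ Eis) {p : ℕ} (hp : p % 3 = 2) :
    normSq z ≠ p := by
  obtain ⟨x, y, rfl⟩ := hz
  intro h
  rw [normSq_eis] at h
  have h' : x * x - x * y + y * y = (p : ℤ) := by exact_mod_cast h
  have h3 : ∀ a b : ZMod 3, a * a - a * b + b * b ≠ 2 := by decide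
  refine h3 x y ?_
  have := congrArg (fun t : ℤ => (t : ZMod 3)) h'
  push_cast at this
  rw [this, ← ZMod.natCast_mod, hp]
  rfl

theorem goodPi_ideal {N : ℕ} {π : ℂ} (h : GoodPi N π) :
    ∃ x : 𝓞 D.E, embE P x = π ∧ x ≠ 0 ∧ (Ideal.span {x}).IsPrime ∧
      (Ideal.absNorm (Ideal.span {x}) : ℝ) = normSq π ∧
      ¬ Ideal.span {x} ∣ Ideal.span {(N : 𝓞 D.E)} := by
  obtain ⟨hπ, p, hp, hpN, hn⟩ := h
  obtain ⟨x, rfl⟩ := exists_emb_eq P hπ
  have hnn : (Ideal.absNorm (Ideal.span {x}) : ℝ) = normSq (embE P x) := absNorm_span_eq P x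
  have hx0 : x ≠ 0 := by
    rintro rfl
    simp only [map_zero] at hn
    rcases hn with h | ⟨-, h⟩
    · exact hp.ne_zero (by exact_mod_cast h.symm)
    · exact hp.ne_zero (by exact_mod_cast h.symm)
  have hbot : Ideal.span {x} ≠ ⊥ := by simpa using hx0
  have hpNat : p ∣ Ideal.absNorm (Ideal.span {x}) ∧ (Ideal.span {x}).IsPrime := by
    rcases hn with hn | ⟨hp3, hn⟩
    · have e : Ideal.absNorm (Ideal.span {x}) = p := by exact_mod_cast hnn.trans hn
      exact ⟨e ▸ dvd_rfl, Ideal.isPrime_of_irreducible_absNorm (e ▸ hp)⟩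
    · have e : Ideal.absNorm (Ideal.span {x}) = p * p := by
        have := hnn.trans (by rw [hn, normSq_natCast])
        exact_mod_cast this
      refine ⟨e ▸ dvd_mul_right _ _, ?_⟩
      obtain ⟨m, hm, hle⟩ := Ideal.exists_le_maximal (Ideal.span {x}) fun h => by
        rw [h, Ideal.absNorm_top] at e
        exact hp.one_lt.ne' (Nat.eq_one_of_mul_eq_one_right e.symm)
      have hm0 : m ≠ ⊥ := fun h => hbot (le_bot_iff.mp (h ▸ hle))
      obtain ⟨y, hy0, rfl⟩ := exists_generator hm0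
      have hdvd := Ideal.absNorm_dvd_absNorm_of_le hle
      rw [e, ← sq] at hdvd
      obtain ⟨i, hi, hie⟩ := (Nat.dvd_prime_pow hp).mp hdvd
      interval_cases i
      · exact absurd (Ideal.absNorm_eq_one_iff.mp (by simpa using hie)) hm.ne_top
      · exact absurd (by rw [← absNorm_span_eq, hie, pow_one])
            (normSq_not_two_mod_three (emb_mem_Eis P y) hp3)
      · obtain ⟨J, hJ⟩ := Ideal.dvd_iff_le.mpr hle
        have h1 := congrArg Ideal.absNorm hJ
        rw [map_mul, e, hie, sq] at h1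
        have : Ideal.absNorm J = 1 := by
          exact (mul_eq_left₀ (pow_ne_zero 2 hp.ne_zero)).mp (by rw [sq]; exact h1.symm)
        rw [hJ, Ideal.absNorm_eq_one_iff.mp this, Ideal.mul_top]
        exact hm.isPrime
  refine ⟨x, rfl, hx0, hpNat.2, hnn, fun hdvd => hpN (dvd_mul_of_dvd_right ?_ 3)⟩
  have h1 := hpNat.1.trans (map_dvd Ideal.absNorm hdvd)
  rw [Ideal.absNorm_span_singleton, show (N : 𝓞 D.E) = algebraMap ℤ _ (N : ℤ) by simp,
    Algebra.norm_algebraMap, Int.natAbs_pow] at h1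
  exact hp.dvd_of_dvd_pow (by simpa using h1)

/-- At a place with a Frobenius element fixing `E` the prime below has degree one. -/
theorem degreeOne_of_frobenius {p : ℕ} (hp : p.Prime) {V : ValuationSubring Qbar}
    (hV : V.LiesOverPrime p) {σ : GalQ} (hσ : σ ∈ D.E.fixingSubgroup)
    (hfr : V.IsFrobeniusAt σ p) :
    ∃ w : Ideal (𝓞 D.E), w.IsPrime ∧ w ≠ ⊥ ∧ Ideal.absNorm w = p ∧ (p : 𝓞 D.E) ∈ w ∧
      IsFrobOver D.E w σ := by
  set w : Ideal (𝓞 D.E) := (primeBelow V).comap (intEmb D.E) with hw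
  have hwV : LanglandsTunnell.CFT.PlaceOver V w := LanglandsTunnell.CFT.placeOver_iff.mpr rfl
  have hwp : w.IsPrime := by rw [hw]; infer_instance
  have hpw : (p : 𝓞 D.E) ∈ w := (hwV _).mpr (by simpa [ValuationSubring.LiesOverPrime] using hV)
  have hw0 : w ≠ ⊥ := fun h => by
    rw [h, Ideal.mem_bot] at hpw
    exact hp.ne_zero (by exact_mod_cast hpw)
  obtain ⟨hd, hc⟩ := Density.isFrobeniusAt_iff.mp hfr
  have hfix : ∀ r : 𝓞 D.E ⧸ w, r ^ p = r := fun r => by
    obtain ⟨x, rfl⟩ := Ideal.Quotient.mk_surjective r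
    rw [← map_pow]
    refine (Ideal.Quotient.eq.mpr ?_).symm
    rw [hwV]
    have := hc ((x : D.E) : Qbar)
      (Density.mem_of_isIntegral V ((RingOfIntegers.isIntegral_coe x).map
        (D.E.val.restrictScalars ℤ)))
    rw [show σ ((x : D.E) : Qbar) = ((x : D.E) : Qbar) from hσ (x : D.E)] at this
    simpa using this
  have hle : Ideal.absNorm w ≤ p := by
    have := hwp.isMaximal hw0
    let := Ideal.Quotient.field w
    have : Finite (𝓞 D.E ⧸ w) := Ideal.finiteQuotientOfFreeOfNeBot w hw0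
    have := Fintype.ofFinite (𝓞 D.E ⧸ w)
    have hne := FiniteField.X_pow_card_sub_X_ne_zero (𝓞 D.E ⧸ w) hp.one_lt
    refine le_trans (le_of_eq ?_) ((Polynomial.card_le_degree_of_subset_roots
      (p := Polynomial.X ^ p - Polynomial.X) (Z := (Finset.univ : Finset (𝓞 D.E ⧸ w))) ?_).trans
      (FiniteField.X_pow_card_sub_X_natDegree_eq (𝓞 D.E ⧸ w) hp.one_lt).le)
    · rw [Finset.card_univ, ← Nat.card_eq_fintype_card]
      rfl
    · intro r _
      rw [Polynomial.mem_roots hne]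
      simp [hfix r]
  obtain ⟨q, hq, j, hj, hN⟩ := ExtVanishing.PrimeIdeals.exists_prime_below ⟨w, hwp, hw0⟩
  have hpq : p = (q : ℕ) := by
    by_contra hne
    have hco : IsCoprime (p : ℤ) (q : ℕ) :=
      Int.isCoprime_iff_gcd_eq_one.mpr ((Nat.coprime_primes hp q.2).mpr hne)
    obtain ⟨u, v, huv⟩ := hco
    refine hwp.ne_top ((Ideal.eq_top_iff_one _).mpr ?_)
    have e : ((u * (p : ℤ) + v * (q : ℕ) : ℤ) : 𝓞 D.E) ∈ w := by
      push_cast
      exact add_mem (w.mul_mem_left _ hpw) (w.mul_mem_left _ hq)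
    rwa [huv, Int.cast_one] at e
  have hN' : Ideal.absNorm w = p := by
    rw [hN, ← hpq] at hle
    rw [hN, ← hpq]
    have := Nat.pow_le_pow_iff_right hp.one_lt |>.mp (hle.trans (pow_one p).ge)
    rw [le_antisymm this hj, pow_one]
  exact ⟨w, hwp, hw0, hN', hpw, hσ, V, hwV, hN'.symm ▸ hfr⟩

end FLTAgent.LanglandsTunnell.Lift
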